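import Fermat.Agent.A2.Mod.H732.SepRed
import Fermat.Agent.A2.Mod.H489.S1
import Fermat.Agent.A2.Mod.H13.Frame
import Fermat.Agent.A2.Mod.H753.IndZero
import Fermat.Agent.A2.Mod.H31.Deg
import Fermat.Agent.A2.Mod.H553.VzeroNe
import Fermat.Agent.A2.Mod.H553.Fricke
import Fermat.Agent.A2.Mod.H96.L12

/-!
# WALL A2 / MODASM S4 (helper732): `Mod.S4Statement`, UNCONDITIONAL

`s4 : S4Statement P E M q w` (`Fermat/Agent/A2/Mod/Asm.lean`, VERBATIM): the coordinate
`x = j · j_q` (resp. `x⁻¹`) is a separating coordinate (`Spec.SepCoord`) of the chart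
`chartAlg x` (resp. `chartAlg x⁻¹`) of level `M q`.

Proof: `sepCoord_of_gauss` (`SepCoord.lean`) for `V₁ = V∞`, `V₂ = V₀ = V∞ ∘ W` with the data of
S1 (leaves L1, L2, L4, L6, L8, L9, L10, all on main) + the elementwise separability of the two
residue extensions, from `exists_sep_poly_of_graph` (`SepRed.lean`) applied to the reduction
relation `redRel` of `V∞` (`(f, f̄)` with `f U₂ = U₁`, `f̄ Ū₂ = Ū₁`, `U₂` primitive) resp. its
pull-back along `W`: the reductions of `x` and `W x` are polar of orders `q + 1` and `M (q + 1)`,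
prime to `q`, so `dx̄/dt ≠ 0`, and the residue field of `R_E` is perfect.
-/

set_option autoImplicit false
set_option linter.unusedSectionVars false
set_option linter.style.haveILetI false
set_option synthInstance.maxHeartbeats 400000
set_option maxHeartbeats 1600000

noncomputable section

namespace Fermat.Agent.A2.Mod.H732

open ModularCurve HahnSeries Polynomial IsLocalRing
open Fermat.Agent.A2 Fermat.Agent.A2.Mod

/-! ### generalities -/

section General

theorem dq_inv_ne_zero {k : Type*} [Field k] {x : LaurentSeries k}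
    (h : Fermat.Agent.S18.H602.dq x ≠ 0) : Fermat.Agent.S18.H602.dq x⁻¹ ≠ 0 := by
  have hx0 : x ≠ 0 := by
    rintro rfl
    apply h
    have := Fermat.Agent.S18.H602.dq_C (0 : k)
    rwa [map_zero] at this
  have h1 : Fermat.Agent.S18.H602.dq (x * x⁻¹)
      = x * Fermat.Agent.S18.H602.dq x⁻¹ + x⁻¹ * Fermat.Agent.S18.H602.dq x :=
    Fermat.Agent.S18.H602.dq_mul x x⁻¹
  rw [mul_inv_cancel₀ hx0, Fermat.Agent.S18.H602.dq_one] at h1
  intro h2
  rw [h2, mul_zero, zero_add] at h1
  rcases mul_eq_zero.mp h1.symm with h3 | h3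
  · exact inv_ne_zero hx0 h3
  · exact h h3

theorem val_eq_one_of_mem {F : Type*} [Field F] (V : ValuationSubring F) {g : F} (hg0 : g ≠ 0)
    (hg : g ∈ V) (hgi : g⁻¹ ∈ V) : V.valuation g = 1 := by
  have h2 : V.valuation g ≤ 1 := (V.valuation_le_one_iff g).mpr hg
  have h3 : V.valuation g⁻¹ ≤ 1 := (V.valuation_le_one_iff _).mpr hgi
  rw [map_inv₀] at h3
  have hv : V.valuation g ≠ 0 := (Valuation.ne_zero_iff _).mpr hg0
  exact le_antisymm h2 ((inv_le_one₀ (zero_lt_iff.mpr hv)).mp h3)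

end General

/-! ### the reduction relation of `V∞` -/

section Rel

variable (P : ValuationSubring Qb) (E : IntermediateField ℚ Qb) (N : ℕ)

/-- `b` is a reduction of `f`: `f U₂ = U₁`, `b Ū₂ = Ū₁` with `U₂ ∈ F_N` primitive. -/
def RedRel (f : FE E N) (b : LaurentSeries (ResidueField (RE P E))) : Prop :=
  ∃ U₁ U₂ : LaurentSeries (RE P E), H708.red (RE P E) U₂ ≠ 0 ∧
    H708.incl (RE P E) U₂ ∈ FE E N ∧
    (f : LaurentSeries E) * H708.incl (RE P E) U₂ = H708.incl (RE P E) U₁ ∧
    b * H708.red (RE P E) U₂ = H708.red (RE P E) U₁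

/-- the reduction relation as a subring of `F_N × k((t))` -/
def redRel : Subring (FE E N × LaurentSeries (ResidueField (RE P E))) where
  carrier := {p | RedRel P E N p.1 p.2}
  mul_mem' := by
    rintro ⟨f, b⟩ ⟨f', b'⟩ ⟨U₁, U₂, h0, hm, he, hr⟩ ⟨U₁', U₂', h0', hm', he', hr'⟩
    refine ⟨U₁ * U₁', U₂ * U₂', ?_, ?_, ?_, ?_⟩
    · rw [map_mul]; exact mul_ne_zero h0 h0'
    · rw [map_mul]; exact mul_mem hm hm'
    · show ((f * f' : FE E N) : LaurentSeries E) * _ = _
      rw [IntermediateField.coe_mul, map_mul, map_mul, ← he, ← he']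
      ring
    · show (b * b') * _ = _
      rw [map_mul, map_mul, ← hr, ← hr']
      ring
  one_mem' := by
    refine ⟨1, 1, ?_, ?_, ?_, ?_⟩
    · rw [map_one]; exact one_ne_zero
    · rw [map_one]; exact one_mem _
    · show ((1 : FE E N) : LaurentSeries E) * _ = _
      rw [IntermediateField.coe_one, one_mul]
    · show (1 : LaurentSeries (ResidueField (RE P E))) * _ = _
      rw [one_mul]
  add_mem' := by
    rintro ⟨f, b⟩ ⟨f', b'⟩ ⟨U₁, U₂, h0, hm, he, hr⟩ ⟨U₁', U₂', h0', hm', he', hr'⟩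
    refine ⟨U₁ * U₂' + U₁' * U₂, U₂ * U₂', ?_, ?_, ?_, ?_⟩
    · rw [map_mul]; exact mul_ne_zero h0 h0'
    · rw [map_mul]; exact mul_mem hm hm'
    · show ((f + f' : FE E N) : LaurentSeries E) * _ = _
      rw [IntermediateField.coe_add, map_add, map_mul, map_mul, map_mul, ← he, ← he']
      ring
    · show (b + b') * _ = _
      rw [map_add, map_mul, map_mul, map_mul, ← hr, ← hr']
      ring
  zero_mem' := by
    refine ⟨0, 1, ?_, ?_, ?_, ?_⟩
    · rw [map_one]; exact one_ne_zero
    · rw [map_one]; exact one_mem _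
    · show ((0 : FE E N) : LaurentSeries E) * _ = _
      rw [IntermediateField.coe_zero, zero_mul, map_zero]
    · show (0 : LaurentSeries (ResidueField (RE P E))) * _ = _
      rw [zero_mul, map_zero]
  neg_mem' := by
    rintro ⟨f, b⟩ ⟨U₁, U₂, h0, hm, he, hr⟩
    refine ⟨-U₁, U₂, h0, hm, ?_, ?_⟩
    · show ((-f : FE E N) : LaurentSeries E) * _ = _
      rw [IntermediateField.coe_neg, map_neg, ← he]
      ring
    · show (-b) * _ = _
      rw [map_neg, ← hr]
      ring

variable {P E N}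

theorem mem_redRel {f : FE E N} {b : LaurentSeries (ResidueField (RE P E))} :
    (f, b) ∈ redRel P E N ↔ RedRel P E N f b := Iff.rfl

/-- constants -/
theorem redRel_const (r : RE P E) :
    (algebraMap (RE P E) (FE E N) r, cres (RE P E) r) ∈ redRel P E N := by
  refine ⟨H708.cstA (RE P E) r, 1, ?_, ?_, ?_, ?_⟩
  · rw [map_one]; exact one_ne_zero
  · rw [map_one]; exact one_mem _
  · rw [map_one, mul_one, H708.incl_cstA]
    rfl
  · rw [map_one, mul_one, H708.red_cstA, cres_apply, Fermat.Agent.S18.H602.algebraMap_eq_C]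
    rfl

/-- functions with an integer expansion -/
theorem redRel_int {u : FE E N} {g : LaurentSeries ℤ}
    (hu : (u : LaurentSeries E) = coeffEmb E (H708.castQ g)) :
    (u, H708.red (RE P E) (H708.castA (RE P E) g)) ∈ redRel P E N := by
  refine ⟨H708.castA (RE P E) g, 1, ?_, ?_, ?_, ?_⟩
  · rw [map_one]; exact one_ne_zero
  · rw [map_one]; exact one_mem _
  · rw [map_one, mul_one, hu, H553.coeffEmb_castQ (P := P)]
  · rw [map_one, mul_one]

/-- every element of `V∞` has a reduction -/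
theorem exists_redRel {V : ValuationSubring (FE E N)} (hV : IsVinf P E N V) {f : FE E N}
    (hf : f ∈ V) : ∃ fb, (f, fb) ∈ redRel P E N := by
  obtain ⟨U₁, U₂, h0, hm, he⟩ := (hV f).mp hf
  exact ⟨H708.red (RE P E) U₁ * (H708.red (RE P E) U₂)⁻¹, U₁, U₂, h0, hm, he,
    by rw [mul_assoc, inv_mul_cancel₀ h0, mul_one]⟩

/-- elements with nonzero reduction are units of `V∞` -/
theorem redRel_unit {V : ValuationSubring (FE E N)} (hV : IsVinf P E N V) {g : FE E N}
    {b : LaurentSeries (ResidueField (RE P E))} (h : (g, b) ∈ redRel P E N) (hb : b ≠ 0) :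
    g ≠ 0 ∧ g ∈ V ∧ g⁻¹ ∈ V ∧ (g⁻¹, b⁻¹) ∈ redRel P E N := by
  obtain ⟨U₁, U₂, h0, hm, he, hr⟩ := h
  have he' : (g : LaurentSeries E) * H708.incl (RE P E) U₂ = H708.incl (RE P E) U₁ := he
  have hr' : b * H708.red (RE P E) U₂ = H708.red (RE P E) U₁ := hr
  have h1 : H708.red (RE P E) U₁ ≠ 0 := by
    rw [← hr']
    exact mul_ne_zero hb h0
  have hU₁0 : H708.incl (RE P E) U₁ ≠ 0 :=
    H708.incl_ne_zero _ (H708.ne_zero_of_red_ne_zero _ h1)
  have hg0 : (g : LaurentSeries E) ≠ 0 := by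
    intro h
    rw [h, zero_mul] at he'
    exact hU₁0 he'.symm
  have hm₁ : H708.incl (RE P E) U₁ ∈ FE E N := by
    rw [← he']
    exact mul_mem g.2 hm
  have hinv : ((g⁻¹ : FE E N) : LaurentSeries E) * H708.incl (RE P E) U₁
      = H708.incl (RE P E) U₂ := by
    rw [IntermediateField.coe_inv, ← he', ← mul_assoc, inv_mul_cancel₀ hg0, one_mul]
  refine ⟨fun h => hg0 (by rw [h]; rfl), (hV g).mpr ⟨U₁, U₂, h0, hm, he'⟩,
    (hV g⁻¹).mpr ⟨U₂, U₁, h1, hm₁, hinv⟩, ⟨U₂, U₁, h1, hm₁, hinv, ?_⟩⟩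
  show b⁻¹ * H708.red (RE P E) U₁ = H708.red (RE P E) U₂
  rw [← hr', ← mul_assoc, inv_mul_cancel₀ hb, one_mul]

/-- elements with zero reduction lie in the maximal ideal of `V∞` -/
theorem redRel_ker {V : ValuationSubring (FE E N)} (hV : IsVinf P E N V)
    (hdvr : IsDiscreteValuationRing (RE P E)) {w : RE P E} (hw : Irreducible w)
    (hu : H48.IsUnif V (algebraMap (RE P E) (FE E N) w)) {g : FE E N}
    (h : (g, (0 : LaurentSeries (ResidueField (RE P E)))) ∈ redRel P E N) :
    V.valuation g < 1 := by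
  obtain ⟨U₁, U₂, h0, hm, he, hr⟩ := h
  have he' : (g : LaurentSeries E) * H708.incl (RE P E) U₂ = H708.incl (RE P E) U₁ := he
  have hr' : (0 : LaurentSeries (ResidueField (RE P E))) * H708.red (RE P E) U₂
      = H708.red (RE P E) U₁ := hr
  rw [zero_mul] at hr'
  have hdiv : ∀ n, w ∣ U₁.coeff n := by
    intro n
    have h1 : IsLocalRing.residue (RE P E) (U₁.coeff n) = 0 := by
      have := congrArg (fun z => z.coeff n) hr'.symm
      simpa using this
    rw [IsLocalRing.residue_eq_zero_iff, hw.maximalIdeal_eq, Ideal.mem_span_singleton] at h1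
    exact h1
  obtain ⟨U', hU'⟩ := H549.exists_cstA_mul_eq w hw.ne_zero U₁ hdiv
  have hwE : ((w : E)) ≠ 0 := fun h0 => hw.ne_zero (Subtype.ext h0)
  have hc : H708.cst (w : E) ≠ 0 := H708.cst_ne_zero hwE
  have hmem : g * (algebraMap (RE P E) (FE E N) w)⁻¹ ∈ V := by
    rw [hV]
    refine ⟨U', U₂, h0, hm, ?_⟩
    have hcoe : (((g * (algebraMap (RE P E) (FE E N) w)⁻¹ : FE E N)) : LaurentSeries E)
        = (g : LaurentSeries E) * (H708.cst (w : E))⁻¹ := by
      rw [IntermediateField.coe_mul, IntermediateField.coe_inv]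
      rfl
    have h2 : (g : LaurentSeries E) * H708.incl (RE P E) U₂
        = H708.cst (w : E) * H708.incl (RE P E) U' := by
      rw [he', ← hU', map_mul, H708.incl_cstA]
    rw [hcoe, mul_assoc, mul_comm (H708.cst (w : E))⁻¹, ← mul_assoc, h2, mul_comm (H708.cst _),
      mul_assoc, mul_inv_cancel₀ hc, mul_one]
  have h3 : V.valuation (g * (algebraMap (RE P E) (FE E N) w)⁻¹) ≤ 1 :=
    (V.valuation_le_one_iff _).mpr hmem
  rw [map_mul, map_inv₀] at h3
  have hv0 : V.valuation (algebraMap (RE P E) (FE E N) w) ≠ 0 := hu.val_ne_zero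
  rw [mul_inv_le_iff₀ (zero_lt_iff.mpr hv0), one_mul] at h3
  exact lt_of_le_of_lt h3 hu.val_lt_one

end Rel

/-! ### polar series have separating reduction -/

section Polar

variable (P : ValuationSubring Qb) (E : IntermediateField ℚ Qb)

theorem dq_red_polar {q : ℕ} (hq : q.Prime) (hP : P.LiesOverPrime q) {g : LaurentSeries ℤ}
    {a : ℕ} (hg : H13.IsPolarInt g a) (ha : ¬ q ∣ a) :
    Fermat.Agent.S18.H602.dq (H708.red (RE P E) (H708.castA (RE P E) g)) ≠ 0 := by
  haveI : CharP (ResidueField (RE P E)) q := H753.charP_residueField P E hq hP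
  refine Fermat.Agent.S18.H602.dq_ne_zero_of_coeff _ (-(a : ℤ)) ?_
  have h1 : (H708.red (RE P E) (H708.castA (RE P E) g)).coeff (-(a : ℤ)) = 1 := by
    show IsLocalRing.residue (RE P E) (((g.coeff (-(a : ℤ)) : ℤ) : RE P E)) = 1
    rw [hg.2, Int.cast_one, map_one]
  rw [h1, mul_one]
  intro h0
  rw [CharP.intCast_eq_zero_iff (ResidueField (RE P E)) q, dvd_neg, Int.natCast_dvd_natCast] at h0
  exact ha h0

end Polar

/-! ### the core -/

section Core

variable {P : ValuationSubring Qb} {E : IntermediateField ℚ Qb} {M q : ℕ} [NeZero M] [NeZero q]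
  {w : RE P E}

theorem perfectField_residue (hS : Setting P E M q w) :
    PerfectField (ResidueField (RE P E)) := by
  haveI : Fact q.Prime := ⟨hS.q_prime⟩
  haveI : CharP (ResidueField (RE P E)) q :=
    H753.charP_residueField P E hS.q_prime hS.lies_over
  haveI : ExpChar (ResidueField (RE P E)) q := ExpChar.prime hS.q_prime
  haveI : PerfectRing (ResidueField (RE P E)) q :=
    PerfectRing.ofSurjective (ResidueField (RE P E)) q
      (fun c => H96.exists_pow_eq_residue P E hS.q_prime hS.lies_over c)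
  exact PerfectRing.toPerfectField (ResidueField (RE P E)) q

/-- **`SepCoord` for a coordinate `y`** with the Gauss property, residue-independent families
and separating reductions on both components. -/
theorem sepCoord_core (hS : Setting P E M q w)
    (V : ValuationSubring (FE E (M * q))) (W : FE E (M * q) ≃ₐ[E] FE E (M * q))
    (hV : IsVinf P E (M * q) V)
    (hu : H48.IsUnif V (algebraMap (RE P E) (FE E (M * q)) w))
    (hne : V ≠ V.comap (W : FE E (M * q) →+* FE E (M * q)))
    (y : FE E (M * q)) (hy : Transcendental E y)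
    (hfin : FiniteDimensional (IntermediateField.adjoin E ({y} : Set (FE E (M * q))))
      (FE E (M * q)))
    {n : ℕ}
    (hdeg : Module.finrank (IntermediateField.adjoin E ({y} : Set (FE E (M * q))))
      (FE E (M * q)) ≤ n + n)
    (hG₁ : Fermat.Agent.A2.H489.IsGaussOver (RE P E) V y)
    (hG₂ : Fermat.Agent.A2.H489.IsGaussOver (RE P E)
      (V.comap (W : FE E (M * q) →+* FE E (M * q))) y)
    (b c : Fin n → FE E (M * q)) (hb : ∀ i, b i ∈ V)
    (hc : ∀ i, c i ∈ V.comap (W : FE E (M * q) →+* FE E (M * q)))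
    (hIb : IndepMod P E (M * q) V w y b)
    (hIc : IndepMod P E (M * q) (V.comap (W : FE E (M * q) →+* FE E (M * q))) w y c)
    (yb yb' : LaurentSeries (ResidueField (RE P E)))
    (h1 : (y, yb) ∈ redRel P E (M * q)) (h1' : Fermat.Agent.S18.H602.dq yb ≠ 0)
    (h2 : (W y, yb') ∈ redRel P E (M * q)) (h2' : Fermat.Agent.S18.H602.dq yb' ≠ 0) :
    SepCoord (RE P E) E y (chartAlg P E (M * q) y) := by
  haveI hdvr : IsDiscreteValuationRing (RE P E) := hS.dvr
  haveI : PerfectField (ResidueField (RE P E)) := perfectField_residue hS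
  have hw := hS.unif
  have hu₂ : H48.IsUnif (V.comap (W : FE E (M * q) →+* FE E (M * q)))
      (algebraMap (RE P E) (FE E (M * q)) w) := Fermat.Agent.A2.Mod.H489.isUnif_comap hu W
  haveI := hfin
  have halg : ∀ f : FE E (M * q),
      IsAlgebraic (IntermediateField.adjoin E ({y} : Set (FE E (M * q)))) f :=
    fun f => Algebra.IsAlgebraic.isAlgebraic f
  refine sepCoord_of_gauss w hw y hy hfin (chartAlg P E (M * q) y) (fun f hf => hf)
    V (V.comap (W : FE E (M * q) →+* FE E (M * q))) hne hu hu₂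
    hG₁.aeval_mem hG₂.aeval_mem
    (fun Q hQ => hG₁.inv_aeval_mem (fun h0 => hQ (C_dvd_of_map_residue_eq_zero hw h0)))
    (fun Q hQ => hG₂.inv_aeval_mem (fun h0 => hQ (C_dvd_of_map_residue_eq_zero hw h0)))
    b c hb hc (fun a ha i => hIb a ha i) (fun a ha i => hIc a ha i) hdeg ?_ ?_
  · intro f hf₁ _
    obtain ⟨fb, hfb⟩ := exists_redRel hV hf₁
    obtain ⟨Pa, hPa, hPf⟩ := exists_primitive_annihilator (E := E) hw hy (halg f)
    exact exists_sep_poly_of_graph V (redRel P E (M * q)) redRel_const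
      (fun g hg => redRel_ker hV hdvr hw hu hg)
      (fun g b hg hb => by
        obtain ⟨hg0, hgV, hgi, -⟩ := redRel_unit hV hg hb
        exact val_eq_one_of_mem V hg0 hgV hgi)
      h1 h1' hfb Pa hPa hPf
  · intro f _ hf₂
    have hf₂' : W f ∈ V := hf₂
    obtain ⟨fb, hfb⟩ := exists_redRel hV hf₂'
    obtain ⟨Pa, hPa, hPf⟩ := exists_primitive_annihilator (E := E) hw hy (halg f)
    refine exists_sep_poly_of_graph (V.comap (W : FE E (M * q) →+* FE E (M * q)))
      ((redRel P E (M * q)).comap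
        (RingHom.prodMap (W : FE E (M * q) →+* FE E (M * q))
          (RingHom.id (LaurentSeries (ResidueField (RE P E))))))
      ?_ ?_ ?_ (x := y) (xb := yb') ?_ h2' (f := f) (fb := fb) ?_ Pa hPa hPf
    · intro r
      show (W (algebraMap (RE P E) (FE E (M * q)) r), cres (RE P E) r) ∈ redRel P E (M * q)
      have hWr : W (algebraMap (RE P E) (FE E (M * q)) r)
          = algebraMap (RE P E) (FE E (M * q)) r := W.commutes (r : E)
      rw [hWr]
      exact redRel_const r
    · intro g hg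
      have hg' : (W g, (0 : LaurentSeries (ResidueField (RE P E)))) ∈ redRel P E (M * q) := hg
      have h3 := redRel_ker hV hdvr hw hu hg'
      rw [← ValuationSubring.mem_nonunits_iff] at h3 ⊢
      exact (H13.mem_nonunits_comap V (W : FE E (M * q) →+* FE E (M * q)) g).mpr h3
    · intro g b hg hb
      have hg' : (W g, b) ∈ redRel P E (M * q) := hg
      obtain ⟨hg0, hgV, hgi, -⟩ := redRel_unit hV hg' hb
      have hg00 : g ≠ 0 := fun h => hg0 (by rw [h, map_zero])
      refine val_eq_one_of_mem _ hg00 hgV ?_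
      show W g⁻¹ ∈ V
      rw [map_inv₀]
      exact hgi
    · exact h2
    · exact hfb

end Core

/-! ### the two charts of `X₀(M q)` -/

section Final

variable (P : ValuationSubring Qb) (E : IntermediateField ℚ Qb) (M q : ℕ) [NeZero M] [NeZero q]
  (w : RE P E)

theorem not_dvd_succ {q : ℕ} (hq : q.Prime) : ¬ q ∣ 1 + q := by
  intro h
  have h1 : q ∣ 1 := (Nat.dvd_add_left (dvd_refl q)).mp h
  exact hq.one_lt.ne' (Nat.dvd_one.mp h1)

theorem not_dvd_level {M q : ℕ} (hqM : ¬ q ∣ M) : ¬ q ∣ M * q + M := by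
  intro h
  have h1 : q ∣ M := (Nat.dvd_add_right (dvd_mul_left q M)).mp h
  exact hqM h1

/-- **MODASM sub-assembly S4** from the leaves L1, L2, L4, L6, L8, L9, L10 (all VERBATIM). -/
theorem s4_of_leaves (hL1 : VinfExistsStatement P E) (hL2 : VinfBasicStatement P E w)
    (hL4 : FrickeExistsStatement E) (hL6 : VzeroNeStatement P E M q w)
    (hL8 : DegStatement E M q) (hL9 : IndInfStatement P E M q w)
    (hL10 : IndZeroStatement P E M q w) : S4Statement P E M q w := by
  intro hS _ _ _ _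
  haveI hdvr : IsDiscreteValuationRing (RE P E) := hS.dvr
  have hw := hS.unif
  have hq := hS.q_prime
  have hN : M * q ≠ 0 := mul_ne_zero hS.M_ne_zero hS.q_prime.ne_zero
  obtain ⟨V, hV⟩ := hL1 (M * q) hN hdvr
  obtain ⟨W, hW⟩ := hL4 (M * q) hN
  obtain ⟨hu, hconst, hj⟩ := hL2 (M * q) hN hdvr hw V hV
  have hu₂ := Fermat.Agent.A2.Mod.H489.isUnif_comap hu W
  have hmem₁ : ∀ r : RE P E, algebraMap (RE P E) (FE E (M * q)) r ∈ V :=
    fun r => (hconst (r : E)).mpr r.2
  have hmem₂ : ∀ r : RE P E, algebraMap (RE P E) (FE E (M * q)) r ∈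
      V.comap (W : FE E (M * q) →+* FE E (M * q)) := by
    intro r
    show W (algebraMap E (FE E (M * q)) (r : E)) ∈ V
    rw [W.commutes]
    exact hmem₁ r
  have ho₁ := Fermat.Agent.A2.Mod.H489.isOver_of_unif hw hu hmem₁
  have ho₂ := Fermat.Agent.A2.Mod.H489.isOver_of_unif hw hu₂ hmem₂
  obtain ⟨b, hb, hIb⟩ := hL9 hS V hV
  obtain ⟨c, hc, hIc⟩ := hL10 hS V W hV hW
  have hx₁ : xE E M q ∈ V := mul_mem (hj 1 (one_dvd _)).1 (hj q (dvd_mul_left q M)).1
  have hx₂ : xE E M q ∈ V.comap (W : FE E (M * q) →+* FE E (M * q)) := by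
    show W (xE E M q) ∈ V
    unfold xE
    rw [map_mul, hW.1 1 (M * q) (one_dvd _) (dvd_refl _) (one_mul _),
      hW.1 q M (dvd_mul_left q M) (dvd_mul_right M q) (mul_comm q M)]
    exact mul_mem (hj _ _).1 (hj _ _).1
  have hpos : 0 < (q + 1) * dedekindPsi M :=
    Nat.mul_pos (Nat.succ_pos q) (dedekindPsi_pos_of_ne_zero M hS.M_ne_zero)
  have hP₁ := Fermat.Agent.A2.Mod.H489.polyIndepMod_of_indepMod hw hu hIb
  have hP₂ := Fermat.Agent.A2.Mod.H489.polyIndepMod_of_indepMod hw hu₂ hIc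
  have hG₁ := Fermat.Agent.A2.H489.IsGaussOver.of_polyIndepMod ho₁ hx₁ hpos hb hP₁
  have hG₂ := Fermat.Agent.A2.H489.IsGaussOver.of_polyIndepMod ho₂ hx₂ hpos hc hP₂
  have hne : V ≠ V.comap (W : FE E (M * q) →+* FE E (M * q)) :=
    fun h => hL6 hS V W hV hW h.symm
  obtain ⟨htr, hdeg, -⟩ := hL8 hS.q_prime hS.q_not_dvd
  have hfin : FiniteDimensional
      (IntermediateField.adjoin E ({xE E M q} : Set (FE E (M * q)))) (FE E (M * q)) :=
    Module.finite_of_finrank_pos (by rw [hdeg]; omega)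
  have hdeg' : Module.finrank
      (IntermediateField.adjoin E ({xE E M q} : Set (FE E (M * q)))) (FE E (M * q)) ≤
      (q + 1) * dedekindPsi M + (q + 1) * dedekindPsi M := by
    rw [hdeg]
    omega
  -- the reductions of `x` and `W x`
  obtain ⟨g, hg, e⟩ := H13.isPolar_xE (E := E) M q
  obtain ⟨g', hg', e'⟩ := H13.isPolar_fricke_xE (E := E) M q hW
  have h1 := redRel_int (P := P) e
  have h1' := dq_red_polar P E hq hS.lies_over hg (not_dvd_succ hq)
  have h2 := redRel_int (P := P) e'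
  have h2' := dq_red_polar P E hq hS.lies_over hg' (not_dvd_level hS.q_not_dvd)
  refine ⟨sepCoord_core hS V W hV hu hne (xE E M q) htr hfin hdeg' hG₁ hG₂ b c hb hc hIb hIc
    _ _ h1 h1' h2 h2', ?_⟩
  -- the chart at infinity
  have hy0 : ∀ {z : LaurentSeries (ResidueField (RE P E))},
      Fermat.Agent.S18.H602.dq z ≠ 0 → z ≠ 0 := by
    intro z hz h0
    apply hz
    rw [h0]
    have := Fermat.Agent.S18.H602.dq_C (0 : ResidueField (RE P E))
    rwa [map_zero] at this
  have hE := Fermat.Agent.A2.H489.adjoin_inv_eq E (xE E M q)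
  have key : ∀ (K : IntermediateField E (FE E (M * q))),
      K = IntermediateField.adjoin E ({xE E M q} : Set (FE E (M * q))) →
      FiniteDimensional K (FE E (M * q)) ∧
        Module.finrank K (FE E (M * q)) ≤
          (q + 1) * dedekindPsi M + (q + 1) * dedekindPsi M := by
    rintro K rfl
    exact ⟨hfin, hdeg'⟩
  obtain ⟨hfin_i, hdeg_i⟩ := key _ hE
  have htr_i : Transcendental E (xE E M q)⁻¹ := by
    intro halg
    exact htr (by simpa using halg.inv)
  have h2i : (W (xE E M q)⁻¹, (H708.red (RE P E) (H708.castA (RE P E) g'))⁻¹)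
      ∈ redRel P E (M * q) := by
    rw [map_inv₀]
    exact (redRel_unit hV h2 (hy0 h2')).2.2.2
  exact sepCoord_core hS V W hV hu hne (xE E M q)⁻¹ htr_i hfin_i hdeg_i hG₁.inv hG₂.inv
    b c hb hc (H753.indepMod_inv P E V w (xE E M q) hx₁ b hIb)
    (H753.indepMod_inv P E _ w (xE E M q) hx₂ c hIc)
    _ _ (redRel_unit hV h1 (hy0 h1')).2.2.2 (dq_inv_ne_zero h1') h2i (dq_inv_ne_zero h2')

/-- **MODASM sub-assembly S4, unconditional.** -/
theorem s4 : S4Statement P E M q w :=
  s4_of_leaves P E M q w (H553.vinfExists P E) (H553.vinfBasic P E w) (H553.frickeExists E)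
    (H553.vzeroNe P E M q w) (H31.deg E M q) (H753.indInf P E M q w) (H753.indZero P E M q w)

end Final

end Fermat.Agent.A2.Mod.H732
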